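import Fermat.Agent.LT.T6.Spec

/-!
# Row LT, tower T6, leaf T6.18 `BadMatchC` ([L] §6, regular set): SUB-SPEC (helper783)

OFF-MAIN.  Definitions + frozen sub-leaf Props.  The PROVED tops are in `BadTop.lean`:

* `badMatch_of_leaves783 : OrbSumExC → OrbSumUniqC → CoverC783 → CptC783 → CutC783 →
    FinSuppLvlC783 → LvlC783 → AddC783 → LocRegC783 → LocCenC783 → BadMatchC`
* `locCen_of_cases783 : CenNormC783 → CenOddC783 → CenQuatC783 → LocCenC783`

Mathlib + `T6/Spec.lean` (helper22) only.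

## The proof ([L] §6; Arthur–Clozel, Ch. I, Prop. 3.1), in the orbit-sum normalisation

`χ(γ) = (tr γ, det γ)`; the orbit sums at a regular `γ` only depend on `χ(γ)`.  A `χ`-ball is
`{γ : |tr γ - t₀| ≤ exp(-N), |det γ - d₀| ≤ exp(-N)}`.

1. **PATCHING (top).**  (a) `CptC`: `TO_δ(φ) ≠ 0` forces `χ(N δ)` into a bounded region
   `|t| ≤ exp B`, `exp(-B) ≤ |d| ≤ exp B`.  (b) LOCAL MATCHING: every point `(t₀, d₀)`, `d₀ ≠ 0`,
   has a `χ`-ball on which some `(m, f)` matches `φ` (`LocRegC` at `t₀² ≠ 4 d₀`, `LocCenC` at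
   `(2z, z²)`).  (c) `CoverC`: the region is compact, finitely many of these balls cover it.
   (d) cut the local `f`'s off by the (disjointified) `χ`-balls (`CutC`: the cut-off function is
   bi-invariant at a deeper level), bring everything to one level (`LvlC`:
   `O^{(m)} = [U(m₀) : U(m)] · O^{(m₀)}`, `FinSuppLvlC`) and add (`AddC`).
2. **REGULAR POINT** (`LocRegC`), `γ₀` regular with `χ(γ₀) = (t₀, d₀)`.  All algebra in the
   2-dimensional algebra `k[γ₀]`: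
   * `γ` with `χ(γ)` near `χ(γ₀)` is conjugate to `a + b γ₀`, `(a, b)` near `(0, 1)`
     (`b² = disc γ / disc γ₀` is a square near `1`; rational canonical form).
   * for `Ω = U(m) γ₀ U(m)`: `x⁻¹ (a + b γ₀) x ∈ Ω ↔ x⁻¹ γ₀ x ∈ Ω` for `(a, b)` near `(0, 1)`
     (`Ω + ϖ^M M₂(𝒪) = Ω`), the centralisers agree: `O_γ(1_Ω) = O_{γ₀}(1_Ω) ≠ 0` near `γ₀`.
   * if `γ₀ = N δ₀`: `γ γ₀⁻¹ = t^l` with `t = a' + b' γ₀` near `1` (`l`-th root near `1` in
     `k[γ₀]`), `N(t δ₀) = t^l γ₀ = γ`, and `y ↦ (a' + b' N(y)) y` is a bijection of the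
     `s`-conjugacy class of `δ₀` onto that of `t δ₀`, commuting with `s`-conjugation, with the
     same twisted centralisers, which moves the points of a compact set inside their `U'(n)`-cosets:
     `TO_{t δ₀}(φ) = TO_{δ₀}(φ)`.  So `f = (TO_{δ₀}(φ) / O_{γ₀}(1_Ω)) · 1_Ω`.
   * if `γ₀` is not a norm: no `γ` near `γ₀` is (else `γ₀ = N(t⁻¹ δ)`): `f = 0`.
3. **CENTRAL POINT** `(2z, z²)` (`LocCenC`), three cases:
   * `z = N ζ`, `ζ ∈ k'^×` (`CenNormC`): translate by `ζ` to `z = 1`; TWISTED DESCENT at `1`: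
     for `h ∈ GL₂(k)` near `1` (conjugation-invariantly) with `h^l` regular, the twisted
     centraliser of `h` is the centraliser `T_h` of `h` in `GL₂(k)`, so with
     `G' = ⊔_j G y_j U'(n)`: `TO_h(φ) = ∑_j O^{Γ_j}_h(φ_j)`, `φ_j(g) = φ(y_j⁻¹ g s(y_j))`,
     `Γ_j = G ∩ y_j U'(n) y_j⁻¹`; only finitely many `j` occur for `h` in a `χ`-ball around `1`
     (properness: `d(v, h s(v)) ≤ R` forces `v` into a bounded neighbourhood of the tree of `G`),
     and `f(h^l) = ∑_j [Γ_j : U(m)]⁻¹ φ_j(h)` (`h ↦ h^l` is a bijection between the conjugation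
     invariant neighbourhoods of `1`).
   * `z` not a norm, `l` odd (`CenOddC`): no norm near `z` (`det γ ∈ N k'^×`, `N k'^×` is open
     and `z² , z^l ∈ N k'^× ⇒ z ∈ N k'^×`): `f = 0`.
   * `z` not a norm, `l = 2` (`CenQuatC`): `δ₀ = [[0, z], [1, 0]]`, `N δ₀ = z`, the twisted
     centraliser of `δ₀` is `D^×` (quaternion division algebra); descent to `D^×` gives, for `γ`
     elliptic near `z`, `TO_δ(φ) = c · #(T \ D^× / 𝒪_D^×)` (`= 2c` for `k[γ]` unramified, `c` for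
     `k[γ]` ramified) and there is no norm among the split regular `γ` near `z`; on the other
     side the Euler–Poincaré function `1_{zK} - ((q+1)/2) 1_{zI}` (`I` = Iwahori subgroup) has
     orbital integrals `1` (unramified), `1/2` (ramified), `0` (split) at the regular `γ` fixing
     a vertex or an edge of the tree (`#vertices - #edges` of the fixed tree modulo `T`).
-/

set_option autoImplicit false

open scoped Matrix

noncomputable section

namespace Fermat.Agent.LT.T6.H783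

open Fermat.Agent.LT.T6

/-! ## Definitions -/

/-- The hypotheses of `BadMatchC` on the data `(k, k', q, l, e, i, s, n, φ)`. -/
structure BadData783 (k k' : Type) [Field k] [Field k'] [Valued k Γ₀] [Valued k' Γ₀]
    (q l e : ℕ) (i : k →+* k') (s : k' ≃+* k') (n : ℕ) (φ : GL (Fin 2) k' → ℂ) : Prop where
  hk : IsLocalField k q
  hk' : IsLocalField k' (q ^ (l / e))
  ext : IsLocalExt k k' l e i s
  prime : l.Prime
  inv : IsBiInv (InU n) φ
  supp : HasFinSupp (InU n) φ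

/-- The `χ`-ball of radius `exp(-N)` around `(t₀, d₀)`: trace and determinant of `γ` are within
`exp(-N)` of `t₀` and `d₀`. -/
def InChiBall783 {k : Type} [Field k] [Valued k Γ₀] (t₀ d₀ : k) (N : ℤ) (γ : GL (Fin 2) k) :
    Prop :=
  Valued.v ((γ : Matrix (Fin 2) (Fin 2) k).trace - t₀) ≤ WithZero.exp (-N) ∧
    Valued.v ((γ : Matrix (Fin 2) (Fin 2) k).det - d₀) ≤ WithZero.exp (-N)

/-- `(m, f)` MATCHES `φ` on the regular `γ` satisfying `P`: `O_γ(f) = TO_δ(φ)` if `γ = N δ`,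
`O_γ(f) = 0` if `γ` is not a norm. -/
def MatchOn783 {k k' : Type} [Field k] [Field k'] [Valued k Γ₀] [Valued k' Γ₀]
    (l : ℕ) (i : k →+* k') (s : k' ≃+* k') (n : ℕ) (φ : GL (Fin 2) k' → ℂ)
    (m : ℕ) (f : GL (Fin 2) k → ℂ) (P : GL (Fin 2) k → Prop) : Prop :=
  (∀ (δ : GL (Fin 2) k') (γ : GL (Fin 2) k) (c c' : ℂ), IsReg γ → P γ →
      IsConj (twNorm s l δ) (Matrix.GeneralLinearGroup.map i γ) →
      IsTwOrbSum s n φ δ c → IsOrbSum m f γ c' → c = c') ∧
    ∀ (γ : GL (Fin 2) k) (c' : ℂ), IsReg γ → P γ → ¬ IsNormFrom l i s γ →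
      IsOrbSum m f γ c' → c' = 0

/-- `(m, f)` is a local solution on the `χ`-ball `(t₀, d₀, N)`. -/
def IsLocSol783 {k k' : Type} [Field k] [Field k'] [Valued k Γ₀] [Valued k' Γ₀]
    (l : ℕ) (i : k →+* k') (s : k' ≃+* k') (n : ℕ) (φ : GL (Fin 2) k' → ℂ)
    (t₀ d₀ : k) (N : ℤ) (m : ℕ) (f : GL (Fin 2) k → ℂ) : Prop :=
  IsBiInv (InU m) f ∧ HasFinSupp (InU m) f ∧ MatchOn783 l i s n φ m f (InChiBall783 t₀ d₀ N)

/-- A predicate on `(trace, determinant)` which is constant on the balls of radius `exp(-N)`. -/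
def IsSmoothPred783 {k : Type} [Field k] [Valued k Γ₀] (N : ℤ) (P : k → k → Prop) : Prop :=
  ∀ t d t' d' : k, Valued.v (t - t') ≤ WithZero.exp (-N) →
    Valued.v (d - d') ≤ WithZero.exp (-N) → (P t d ↔ P t' d')

open Classical in
/-- The cut-off of `f` by a predicate on `(trace, determinant)`. -/
def cutOff783 {k : Type} [Field k] [Valued k Γ₀] (P : k → k → Prop)
    (f : GL (Fin 2) k → ℂ) : GL (Fin 2) k → ℂ :=
  fun g => if P (g : Matrix (Fin 2) (Fin 2) k).trace (g : Matrix (Fin 2) (Fin 2) k).det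
    then f g else 0

/-- `z ∈ k` is a norm from `k'`: `i z = ζ · s ζ ⋯ s^{l-1} ζ`. -/
def IsFieldNorm783 {k k' : Type} [Field k] [Field k'] (l : ℕ) (i : k →+* k') (s : k' ≃+* k')
    (z : k) : Prop :=
  ∃ ζ : k', i z = ∏ j ∈ Finset.range l, (s ^ j) ζ

/-! ## Sub-leaves of the patching (first level) -/

/-- **T6.18a (compactness).**  The bounded region `|t| ≤ exp B`, `exp(-B) ≤ |d| ≤ exp B` of
`k × k` is covered by finitely many balls `B(p, exp(-N p))`, `p` in the region, for EVERY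
radius function `N`. -/
def CoverC783 : Prop :=
  ∀ (k : Type) [Field k] [Valued k Γ₀] (q : ℕ), IsLocalField k q →
    ∀ (B : ℤ) (N : k → k → ℤ), ∃ J : Finset (k × k),
      (∀ p ∈ J, WithZero.exp (-B) ≤ Valued.v p.2) ∧
      ∀ t d : k, Valued.v t ≤ WithZero.exp B → WithZero.exp (-B) ≤ Valued.v d →
        Valued.v d ≤ WithZero.exp B →
        ∃ p ∈ J, Valued.v (t - p.1) ≤ WithZero.exp (-(N p.1 p.2)) ∧
          Valued.v (d - p.2) ≤ WithZero.exp (-(N p.1 p.2))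

/-- **T6.18b (bounded support).**  A non-zero twisted orbit sum at `δ`, `N δ ∼ γ`, forces
`χ(γ)` into a bounded region (`φ` is supported on finitely many cosets `x U'(n)`; the entries
of `N y`, `y ∈ x U'(n)`, are bounded, `det N y` has the valuation of `det N x`). -/
def CptC783 : Prop :=
  ∀ (k k' : Type) [Field k] [Field k'] [Valued k Γ₀] [Valued k' Γ₀] (q l e : ℕ)
    (i : k →+* k') (s : k' ≃+* k') (n : ℕ) (φ : GL (Fin 2) k' → ℂ),
    BadData783 k k' q l e i s n φ →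
    ∃ B : ℤ, ∀ (δ : GL (Fin 2) k') (γ : GL (Fin 2) k) (c : ℂ),
      IsConj (twNorm s l δ) (Matrix.GeneralLinearGroup.map i γ) →
      IsTwOrbSum s n φ δ c → c ≠ 0 →
      Valued.v (γ : Matrix (Fin 2) (Fin 2) k).trace ≤ WithZero.exp B ∧
        WithZero.exp (-B) ≤ Valued.v (γ : Matrix (Fin 2) (Fin 2) k).det ∧
        Valued.v (γ : Matrix (Fin 2) (Fin 2) k).det ≤ WithZero.exp B

/-- **T6.18c (cut-off).**  The cut-off of a bi-`U(m)`-invariant function of finite support by a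
smooth predicate on `(tr, det)` is bi-`U(m')`-invariant for some `m' ≥ m`
(`tr(u g u') - tr g` and `det(u g u') - det g` are small on the support, uniformly). -/
def CutC783 : Prop :=
  ∀ (k : Type) [Field k] [Valued k Γ₀] (q : ℕ), IsLocalField k q →
    ∀ (m : ℕ) (f : GL (Fin 2) k → ℂ), IsBiInv (InU m) f → HasFinSupp (InU m) f →
    ∀ (N : ℤ) (P : k → k → Prop), IsSmoothPred783 N P →
      ∃ m' : ℕ, m ≤ m' ∧ IsBiInv (InU m') (cutOff783 P f)

/-- **T6.18c' (finite support at a deeper level).**  `U(m)` is a finite union of cosets of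
`U(m')`, `m ≤ m'`. -/
def FinSuppLvlC783 : Prop :=
  ∀ (k : Type) [Field k] [Valued k Γ₀] (q : ℕ), IsLocalField k q →
    ∀ (m m' : ℕ) (f : GL (Fin 2) k → ℂ), m ≤ m' → HasFinSupp (InU m) f →
      HasFinSupp (InU m') f

/-- **T6.18d (level change).**  `O^{(m)}_γ(f) = κ · O^{(m₀)}_γ(f)`, `κ = [U(m₀) : U(m)]`, for
`f` bi-`U(m₀)`-invariant, `m₀ ≤ m`, `γ` regular (the `U(m₀)`-orbit of `y` is the union of
`[U(m₀) : (T_y ∩ U(m₀)) U(m)]` orbits of `U(m)`, and
`[T_y^c : T_y ∩ U(m)] = [T_y^c : T_y ∩ U(m₀)] [T_y ∩ U(m₀) : T_y ∩ U(m)]`). -/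
def LvlC783 : Prop :=
  ∀ (k : Type) [Field k] [Valued k Γ₀] (q : ℕ), IsLocalField k q →
    ∀ m₀ m : ℕ, m₀ ≤ m → ∃ κ : ℕ, κ ≠ 0 ∧
      ∀ f : GL (Fin 2) k → ℂ, IsBiInv (InU m₀) f →
        ∀ (γ : GL (Fin 2) k) (c c' : ℂ), IsReg γ →
          IsOrbSum m₀ f γ c → IsOrbSum m f γ c' → c' = (κ : ℂ) * c

/-- **T6.18e (additivity).**  Orbit sums are additive in the function (common refinement of the
two systems of representatives; `f`, `g` and the index are constant on the `U(m)`-orbits). -/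
def AddC783 : Prop :=
  ∀ (k : Type) [Field k] [Valued k Γ₀] (m : ℕ) (f g : GL (Fin 2) k → ℂ),
    IsBiInv (InU m) f → IsBiInv (InU m) g →
    ∀ (γ : GL (Fin 2) k) (c d : ℂ), IsOrbSum m f γ c → IsOrbSum m g γ d →
      IsOrbSum m (f + g) γ (c + d)

/-! ## Local matching -/

/-- **T6.18f (local matching at a REGULAR point)**, step 2 of the header. -/
def LocRegC783 : Prop :=
  ∀ (k k' : Type) [Field k] [Field k'] [Valued k Γ₀] [Valued k' Γ₀] (q l e : ℕ)
    (i : k →+* k') (s : k' ≃+* k') (n : ℕ) (φ : GL (Fin 2) k' → ℂ),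
    BadData783 k k' q l e i s n φ →
    ∀ t₀ d₀ : k, d₀ ≠ 0 → t₀ ^ 2 - 4 * d₀ ≠ 0 →
      ∃ (N : ℤ) (m : ℕ) (f : GL (Fin 2) k → ℂ), IsLocSol783 l i s n φ t₀ d₀ N m f

/-- **Local matching at a CENTRAL point** `(2z, z²)`, step 3 of the header. -/
def LocCenC783 : Prop :=
  ∀ (k k' : Type) [Field k] [Field k'] [Valued k Γ₀] [Valued k' Γ₀] (q l e : ℕ)
    (i : k →+* k') (s : k' ≃+* k') (n : ℕ) (φ : GL (Fin 2) k' → ℂ),
    BadData783 k k' q l e i s n φ →
    ∀ z : k, z ≠ 0 →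
      ∃ (N : ℤ) (m : ℕ) (f : GL (Fin 2) k → ℂ), IsLocSol783 l i s n φ (2 * z) (z ^ 2) N m f

/-- **T6.18g (central point, `z` a norm): twisted descent at the centre.** -/
def CenNormC783 : Prop :=
  ∀ (k k' : Type) [Field k] [Field k'] [Valued k Γ₀] [Valued k' Γ₀] (q l e : ℕ)
    (i : k →+* k') (s : k' ≃+* k') (n : ℕ) (φ : GL (Fin 2) k' → ℂ),
    BadData783 k k' q l e i s n φ →
    ∀ z : k, z ≠ 0 → IsFieldNorm783 l i s z →
      ∃ (N : ℤ) (m : ℕ) (f : GL (Fin 2) k → ℂ), IsLocSol783 l i s n φ (2 * z) (z ^ 2) N m f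

/-- **T6.18h (central point, `z` not a norm, `l` odd): there is no norm near `z`.** -/
def CenOddC783 : Prop :=
  ∀ (k k' : Type) [Field k] [Field k'] [Valued k Γ₀] [Valued k' Γ₀] (q l e : ℕ)
    (i : k →+* k') (s : k' ≃+* k'),
    IsLocalField k q → IsLocalField k' (q ^ (l / e)) → IsLocalExt k k' l e i s → l.Prime →
    l ≠ 2 → ∀ z : k, z ≠ 0 → ¬ IsFieldNorm783 l i s z →
      ∃ N : ℤ, ∀ γ : GL (Fin 2) k, InChiBall783 (2 * z) (z ^ 2) N γ → ¬ IsNormFrom l i s γ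

/-- **T6.18i (central point, `z` not a norm, `l = 2`): the quaternion case.** -/
def CenQuatC783 : Prop :=
  ∀ (k k' : Type) [Field k] [Field k'] [Valued k Γ₀] [Valued k' Γ₀] (q e : ℕ)
    (i : k →+* k') (s : k' ≃+* k') (n : ℕ) (φ : GL (Fin 2) k' → ℂ),
    BadData783 k k' q 2 e i s n φ →
    ∀ z : k, z ≠ 0 → ¬ IsFieldNorm783 2 i s z →
      ∃ (N : ℤ) (m : ℕ) (f : GL (Fin 2) k → ℂ), IsLocSol783 2 i s n φ (2 * z) (z ^ 2) N m f

end Fermat.Agent.LT.T6.H783

end
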