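import Fermat.Agent.LT.T6.H783.BadFinal
import Fermat.Agent.LT.T6.H385.QuatClosed
import Fermat.Agent.LT.T6.H675.QuatCoreFinal
import Fermat.Agent.LT.T6.H558.QuatSetClosed
import Fermat.Agent.LT.T6.H277.OrbEllFinal
import Fermat.Agent.LT.T6.H826.EllReduce
import Fermat.Agent.LT.T6.H847.EllRamTop
import Fermat.Agent.LT.H129.EllParamClosed
import Fermat.Agent.LT.T6.H288.HypClosed
import Fermat.Agent.LT.T6.H159.FLVanish
import Fermat.Agent.LT.T6.H313.QuadUnitNorm
import Fermat.Agent.LT.T6.H687.CartanInv

/-!
# Row LT, tower T6, leaf T6.18 `BadMatchC`: CLOSED modulo the count of T6.14 (helper783)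

State 15:00Z.  Every leaf of T6.18 is closed; the quaternion case `CenQuatC783` (station
helper385) uses the orbital integrals of the spherical Euler-Poincare function, hence the
EXTERNAL leaf `H847.EllOrbC` of T6.14, which is proved from `H847.EllCountC` (row 1058, the only
open leaf of T6.14).  Therefore

* `cenQuat_of_ellOrb783 : H847.EllOrbC → CenQuatC783`,
* `cenQuat_of_ellCount783 : H847.EllCountC → CenQuatC783`,
* `badMatch_of_ellOrb783 : H847.EllOrbC → BadMatchC`,
* `badMatch_of_ellCount783 : H847.EllCountC → BadMatchC`.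

T6.18 adds NO open leaf to the tower.  All files of the authors are byte-identical copies:
quaternion case helper385 (tops), 392, 122, 497, 844, 388, 382, 886, 355, 665, 621, 558 (+ its
sub-leaves), 675 (+ 793, 983, 526: norm index from the local class field theory of main S55);
external 687, 277, 826, 847, 129, 288, 888, 159, 313.
-/

set_option autoImplicit false

noncomputable section

namespace Fermat.Agent.LT.T6.H783

open Fermat.Agent.LT.T6

/-- **T6.18i `CenQuatC783`** from the external leaf `EllOrbC` of T6.14. -/
theorem cenQuat_of_ellOrb783 (hO : H847.EllOrbC) : CenQuatC783 :=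
  H385.cenQuat_closed2_385 H687.cartanInvC_h687 H277.orbEllUnrC277 H826.ellReduceC826 hO
    H288.diagReduceC_closed H288.orbSumDiagC_closed
    (H159.normCrit_of_quad H313.quadUnitNormC313)
    H675.quatCoreRamC385_675 H558.quatSettingC558

/-- **T6.18i `CenQuatC783`** from the open leaf `EllCountC` of T6.14 (row 1058). -/
theorem cenQuat_of_ellCount783 (hn : H847.EllCountC) : CenQuatC783 :=
  cenQuat_of_ellOrb783
    (H847.ellOrb_of H687.cartanInvC_h687 Fermat.Agent.LT.H129.ellParamC129 hn)

/-- **T6.18 `BadMatchC`** from the external leaf `EllOrbC` of T6.14. -/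
theorem badMatch_of_ellOrb783 (hO : H847.EllOrbC) : BadMatchC :=
  badMatch_of_cenQuat783 (cenQuat_of_ellOrb783 hO)

/-- **T6.18 `BadMatchC`** from the open leaf `EllCountC` of T6.14 (row 1058). -/
theorem badMatch_of_ellCount783 (hn : H847.EllCountC) : BadMatchC :=
  badMatch_of_cenQuat783 (cenQuat_of_ellCount783 hn)

end Fermat.Agent.LT.T6.H783

end
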