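import Fermat.Agent.LT.T6.H783.BadSpec

/-!
# Row LT, tower T6, leaf T6.18 `BadMatchC`: the PROVED tops from the sub-leaves (helper783)

* `locCen_of_cases783 : CenNormC783 → CenOddC783 → CenQuatC783 → LocCenC783`
* `badMatch_of_leaves783 : OrbSumExC → OrbSumUniqC → CoverC783 → CptC783 → CutC783 →
    FinSuppLvlC783 → LvlC783 → AddC783 → LocRegC783 → LocCenC783 → BadMatchC`
-/

set_option autoImplicit false

open scoped Matrix

noncomputable section

namespace Fermat.Agent.LT.T6.H783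

open Fermat.Agent.LT.T6

/-! ## Small lemmas -/

theorem glAut_refl783 {R : Type} [CommRing R] (x : GL (Fin 2) R) :
    glAut (RingEquiv.refl R) x = x := by
  apply Units.ext
  ext a b
  simp [glAut]

section Basic

variable {k : Type} [Field k] [Valued k Γ₀]

theorem inU_mono783 {m m' : ℕ} (h : m ≤ m') {g : GL (Fin 2) k} (hg : InU m' g) : InU m g := by
  intro a b
  have hle : WithZero.exp (-(m' : ℤ)) ≤ WithZero.exp (-(m : ℤ)) := by
    rw [WithZero.exp_le_exp]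
    omega
  exact ⟨(hg a b).1.trans hle, (hg a b).2.trans hle⟩

theorem isBiInv_mono783 {m m' : ℕ} (h : m ≤ m') {f : GL (Fin 2) k → ℂ}
    (hf : IsBiInv (InU m) f) : IsBiInv (InU m') f :=
  fun u u' g hu hu' => hf u u' g (inU_mono783 h hu) (inU_mono783 h hu')

/-- Trace and determinant are constant on the conjugacy class. -/
theorem class_trace783 {γ y : GL (Fin 2) k}
    (hy : ∃ x : GL (Fin 2) k, y = x⁻¹ * γ * glAut (RingEquiv.refl k) x) :
    (y : Matrix (Fin 2) (Fin 2) k).trace = (γ : Matrix (Fin 2) (Fin 2) k).trace ∧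
      (y : Matrix (Fin 2) (Fin 2) k).det = (γ : Matrix (Fin 2) (Fin 2) k).det := by
  obtain ⟨x, rfl⟩ := hy
  rw [glAut_refl783]
  constructor
  · have : ((x⁻¹ * γ * x : GL (Fin 2) k) : Matrix (Fin 2) (Fin 2) k)
        = (x⁻¹ : GL (Fin 2) k).val * (γ.val * x.val) := by
      simp [mul_assoc]
    rw [this, Matrix.trace_mul_comm, mul_assoc]
    have h2 : x.val * (x⁻¹ : GL (Fin 2) k).val = 1 := by
      rw [← Units.val_mul]; simp
    rw [h2, mul_one]
  · have : ((x⁻¹ * γ * x : GL (Fin 2) k) : Matrix (Fin 2) (Fin 2) k)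
        = (x⁻¹ : GL (Fin 2) k).val * γ.val * x.val := by
      simp
    rw [this, Matrix.det_mul, Matrix.det_mul]
    have h2 : (x⁻¹ : GL (Fin 2) k).val.det * x.val.det = 1 := by
      rw [← Matrix.det_mul, ← Units.val_mul]; simp
    calc (x⁻¹ : GL (Fin 2) k).val.det * γ.val.det * x.val.det
        = ((x⁻¹ : GL (Fin 2) k).val.det * x.val.det) * γ.val.det := by ring
      _ = γ.val.det := by rw [h2, one_mul]

/-- Orbit sums only depend on the function on the class. -/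
theorem orbSum_congr783 {m : ℕ} {f g : GL (Fin 2) k → ℂ} {γ : GL (Fin 2) k} {c : ℂ}
    (hfg : ∀ y : GL (Fin 2) k, (∃ x : GL (Fin 2) k, y = x⁻¹ * γ * glAut (RingEquiv.refl k) x) →
      f y = g y)
    (h : IsOrbSum m f γ c) : IsOrbSum m g γ c := by
  obtain ⟨R, h1, h2, h3, h4⟩ := h
  refine ⟨R, h1, h2, ?_, ?_⟩
  · intro y hy hne
    exact h3 y hy (by rwa [hfg y hy])
  · rw [h4]
    exact Finset.sum_congr rfl fun y hy => by rw [hfg y (h1 y hy)]

/-- The orbit sum of a function vanishing on the class is zero. -/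
theorem orbSum_eq_zero783 {m : ℕ} {f : GL (Fin 2) k → ℂ} {γ : GL (Fin 2) k} {c : ℂ}
    (hf : ∀ y : GL (Fin 2) k, (∃ x : GL (Fin 2) k, y = x⁻¹ * γ * glAut (RingEquiv.refl k) x) →
      f y = 0)
    (h : IsOrbSum m f γ c) : c = 0 := by
  obtain ⟨R, h1, -, -, h4⟩ := h
  rw [h4]
  exact Finset.sum_eq_zero fun y hy => by rw [hf y (h1 y hy), zero_mul]

theorem orbSum_zero783 (m : ℕ) {f : GL (Fin 2) k → ℂ} {γ : GL (Fin 2) k}
    (hf : ∀ y : GL (Fin 2) k, (∃ x : GL (Fin 2) k, y = x⁻¹ * γ * glAut (RingEquiv.refl k) x) →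
      f y = 0) : IsOrbSum m f γ 0 := by
  refine ⟨∅, by simp, by simp, ?_, by simp⟩
  intro y hy hne
  exact absurd (hf y hy) hne

theorem orbSum_smul783 {m : ℕ} {f : GL (Fin 2) k → ℂ} {γ : GL (Fin 2) k} {c : ℂ} (a : ℂ)
    (h : IsOrbSum m f γ c) : IsOrbSum m (a • f) γ (a * c) := by
  obtain ⟨R, h1, h2, h3, h4⟩ := h
  refine ⟨R, h1, h2, ?_, ?_⟩
  · intro y hy hne
    refine h3 y hy ?_
    intro h0
    apply hne
    simp [h0]
  · rw [h4, Finset.mul_sum]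
    exact Finset.sum_congr rfl fun y _ => by simp [mul_assoc]

theorem isBiInv_smul783 {m : ℕ} {f : GL (Fin 2) k → ℂ} (a : ℂ) (hf : IsBiInv (InU m) f) :
    IsBiInv (InU m) (a • f) := by
  intro u u' g hu hu'
  simp [hf u u' g hu hu']

theorem isBiInv_add783 {m : ℕ} {f g : GL (Fin 2) k → ℂ} (hf : IsBiInv (InU m) f)
    (hg : IsBiInv (InU m) g) : IsBiInv (InU m) (f + g) := by
  intro u u' x hu hu'
  simp [hf u u' x hu hu', hg u u' x hu hu']

theorem hasFinSupp_smul783 {m : ℕ} {f : GL (Fin 2) k → ℂ} (a : ℂ)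
    (hf : HasFinSupp (InU m) f) : HasFinSupp (InU m) (a • f) := by
  obtain ⟨F, hF⟩ := hf
  refine ⟨F, fun g hg => hF g ?_⟩
  intro h0
  apply hg
  simp [h0]

theorem hasFinSupp_add783 {m : ℕ} {f g : GL (Fin 2) k → ℂ} (hf : HasFinSupp (InU m) f)
    (hg : HasFinSupp (InU m) g) : HasFinSupp (InU m) (f + g) := by
  classical
  obtain ⟨F, hF⟩ := hf
  obtain ⟨G, hG⟩ := hg
  refine ⟨F ∪ G, fun x hx => ?_⟩
  by_cases h0 : f x = 0
  · have : g x ≠ 0 := by
      intro h1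
      apply hx
      simp [h0, h1]
    obtain ⟨y, hy, u, hu, rfl⟩ := hG x this
    exact ⟨y, Finset.mem_union_right _ hy, u, hu, rfl⟩
  · obtain ⟨y, hy, u, hu, rfl⟩ := hF x h0
    exact ⟨y, Finset.mem_union_left _ hy, u, hu, rfl⟩

theorem hasFinSupp_cutOff783 {m : ℕ} {f : GL (Fin 2) k → ℂ} (P : k → k → Prop)
    (hf : HasFinSupp (InU m) f) : HasFinSupp (InU m) (cutOff783 P f) := by
  obtain ⟨F, hF⟩ := hf
  refine ⟨F, fun g hg => hF g ?_⟩
  intro h0
  apply hg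
  unfold cutOff783
  split_ifs <;> simp [h0]

end Basic

/-! ## Existence and uniqueness of the ordinary orbit sums -/

section ExUniq

variable {k : Type} [Field k] [Valued k Γ₀]

theorem isLocalExt_self783 : IsLocalExt k k 1 1 (RingHom.id k) (RingEquiv.refl k) where
  cyc :=
    { pos := Nat.one_pos
      fix_i := fun _ => rfl
      fixed := fun y _ => ⟨y, rfl⟩
      order := fun _ => rfl
      faithful := fun m h0 h1 => by omega }
  e_pos := Nat.one_pos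
  val_i := fun x => by simp
  val_s := fun _ => rfl

theorem twNorm_one783 (γ : GL (Fin 2) k) : twNorm (RingEquiv.refl k) 1 γ = γ := by
  simp [twNorm, twN]

theorem orbEx783 (hEx : OrbSumExC) {q : ℕ} (hk : IsLocalField k q) {m : ℕ}
    {f : GL (Fin 2) k → ℂ} (hb : IsBiInv (InU m) f) (hf : HasFinSupp (InU m) f)
    {γ : GL (Fin 2) k} (hγ : IsReg γ) : ∃ c : ℂ, IsOrbSum m f γ c := by
  have hk' : IsLocalField k (q ^ (1 / 1)) := by simpa using hk
  exact hEx k k q 1 1 (RingHom.id k) (RingEquiv.refl k) hk hk' isLocalExt_self783 m f hb hf γ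
    (by rwa [twNorm_one783])

theorem orbUniq783 (hUniq : OrbSumUniqC) {m : ℕ} {f : GL (Fin 2) k → ℂ}
    (hb : IsBiInv (InU m) f) {γ : GL (Fin 2) k} {c c' : ℂ} (h : IsOrbSum m f γ c)
    (h' : IsOrbSum m f γ c') : c = c' :=
  hUniq k (RingEquiv.refl k) (fun _ => rfl) m f hb γ c c' h h'

/-- Descending the level: an orbit sum of `κ⁻¹ f` at level `M` is an orbit sum of `f` at
level `m`. -/
theorem descend_level783 (hEx : OrbSumExC) {q : ℕ} (hk : IsLocalField k q) {m M : ℕ}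
    {κ : ℕ} (hκ : κ ≠ 0)
    (hL : ∀ f : GL (Fin 2) k → ℂ, IsBiInv (InU m) f →
      ∀ (γ : GL (Fin 2) k) (c c' : ℂ), IsReg γ →
        IsOrbSum m f γ c → IsOrbSum M f γ c' → c' = (κ : ℂ) * c)
    {f : GL (Fin 2) k → ℂ} (hb : IsBiInv (InU m) f) (hf : HasFinSupp (InU m) f)
    {γ : GL (Fin 2) k} (hγ : IsReg γ) {c' : ℂ}
    (h : IsOrbSum M ((κ : ℂ)⁻¹ • f) γ c') : IsOrbSum m f γ c' := by
  have hκ' : (κ : ℂ) ≠ 0 := Nat.cast_ne_zero.mpr hκ
  obtain ⟨c₀, hc₀⟩ := orbEx783 hEx hk hb hf hγ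
  have h1 : IsOrbSum M f γ ((κ : ℂ) * c') := by
    have := orbSum_smul783 (κ : ℂ) h
    rwa [smul_smul, mul_inv_cancel₀ hκ', one_smul] at this
  have h2 := hL f hb γ c₀ _ hγ hc₀ h1
  have h3 : c' = c₀ := mul_left_cancel₀ hκ' h2
  rw [h3]
  exact hc₀

end ExUniq

/-! ## The patching step -/

section Patch

variable {k : Type} [Field k] [Valued k Γ₀]

/-- The ball of radius `exp(-N)` around `(t₀, d₀)` in `k × k`. -/
def ballQ783 (t₀ d₀ : k) (N : ℤ) : k → k → Prop :=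
  fun t d => Valued.v (t - t₀) ≤ WithZero.exp (-N) ∧ Valued.v (d - d₀) ≤ WithZero.exp (-N)

/-- A predicate on `(tr, det)` as a predicate on `GL₂(k)`. -/
def QOn783 (Q : k → k → Prop) (γ : GL (Fin 2) k) : Prop :=
  Q (γ : Matrix (Fin 2) (Fin 2) k).trace (γ : Matrix (Fin 2) (Fin 2) k).det

theorem inChiBall_iff783 (t₀ d₀ : k) (N : ℤ) (γ : GL (Fin 2) k) :
    InChiBall783 t₀ d₀ N γ ↔ QOn783 (ballQ783 t₀ d₀ N) γ := Iff.rfl

theorem qOn_class783 (Q : k → k → Prop) {γ y : GL (Fin 2) k}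
    (hy : ∃ x : GL (Fin 2) k, y = x⁻¹ * γ * glAut (RingEquiv.refl k) x) :
    QOn783 Q y ↔ QOn783 Q γ := by
  unfold QOn783
  rw [(class_trace783 hy).1, (class_trace783 hy).2]

theorem ball_smooth783 {N N₀ : ℤ} (h : N ≤ N₀) {t t' a : k}
    (ht : Valued.v (t - t') ≤ WithZero.exp (-N₀)) :
    Valued.v (t - a) ≤ WithZero.exp (-N) ↔ Valued.v (t' - a) ≤ WithZero.exp (-N) := by
  have hle : WithZero.exp (-N₀) ≤ WithZero.exp (-N) := by
    rw [WithZero.exp_le_exp]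
    omega
  have ht' := ht.trans hle
  constructor
  · intro h1
    have : t' - a = (t - a) - (t - t') := by ring
    rw [this]
    exact Valuation.map_sub_le _ h1 ht'
  · intro h1
    have : t - a = (t' - a) + (t - t') := by ring
    rw [this]
    exact Valuation.map_add_le _ h1 ht'

theorem ballQ_smooth783 (t₀ d₀ : k) {N N₀ : ℤ} (h : N ≤ N₀) :
    IsSmoothPred783 N₀ (ballQ783 t₀ d₀ N) := by
  intro t d t' d' ht hd
  unfold ballQ783
  rw [ball_smooth783 h ht, ball_smooth783 h hd]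

theorem smooth_mono783 {Q : k → k → Prop} {N N₀ : ℤ} (h : N ≤ N₀)
    (hQ : IsSmoothPred783 N Q) : IsSmoothPred783 N₀ Q := by
  have hle : WithZero.exp (-N₀) ≤ WithZero.exp (-N) := by
    rw [WithZero.exp_le_exp]
    omega
  exact fun t d t' d' ht hd => hQ t d t' d' (ht.trans hle) (hd.trans hle)

theorem matchOn_mono783 {k' : Type} [Field k'] [Valued k' Γ₀] {l : ℕ} {i : k →+* k'}
    {s : k' ≃+* k'} {n : ℕ} {φ : GL (Fin 2) k' → ℂ} {m : ℕ} {f : GL (Fin 2) k → ℂ}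
    {P P' : GL (Fin 2) k → Prop} (hPP : ∀ γ, P γ → P' γ)
    (h : MatchOn783 l i s n φ m f P') : MatchOn783 l i s n φ m f P :=
  ⟨fun δ γ c c' hr hP hc ht ho => h.1 δ γ c c' hr (hPP γ hP) hc ht ho,
    fun γ c' hr hP hn ho => h.2 γ c' hr (hPP γ hP) hn ho⟩

variable {k' : Type} [Field k'] [Valued k' Γ₀]

/-- **The patching step**: a solution on `Q` (supported in `Q`) and a local solution on a
`χ`-ball give a solution on the union (supported in the union). -/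
theorem step783 (hEx : OrbSumExC) (hUniq : OrbSumUniqC) (hCut : CutC783)
    (hFin : FinSuppLvlC783) (hLvl : LvlC783) (hAdd : AddC783)
    {q : ℕ} (hk : IsLocalField k q)
    {l : ℕ} {i : k →+* k'} {s : k' ≃+* k'} {n : ℕ} {φ : GL (Fin 2) k' → ℂ}
    {Q : k → k → Prop} {NQ : ℤ} (hQ : IsSmoothPred783 NQ Q)
    {m₁ : ℕ} {f₁ : GL (Fin 2) k → ℂ} (h1b : IsBiInv (InU m₁) f₁)
    (h1f : HasFinSupp (InU m₁) f₁) (h1m : MatchOn783 l i s n φ m₁ f₁ (QOn783 Q))
    (h1s : ∀ g, f₁ g ≠ 0 → QOn783 Q g)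
    {t₀ d₀ : k} {N : ℤ} {m₂ : ℕ} {f₂ : GL (Fin 2) k → ℂ}
    (h2 : IsLocSol783 l i s n φ t₀ d₀ N m₂ f₂) :
    ∃ (m : ℕ) (f : GL (Fin 2) k → ℂ), IsBiInv (InU m) f ∧ HasFinSupp (InU m) f ∧
      MatchOn783 l i s n φ m f (fun γ => QOn783 (ballQ783 t₀ d₀ N) γ ∨ QOn783 Q γ) ∧
      ∀ g, f g ≠ 0 → QOn783 (ballQ783 t₀ d₀ N) g ∨ QOn783 Q g := by
  obtain ⟨h2b, h2f, h2m⟩ := h2
  -- the cut-off predicate
  set P : k → k → Prop := fun t d => ballQ783 t₀ d₀ N t d ∧ ¬ Q t d with hPdef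
  have hP : IsSmoothPred783 (max NQ N) P := by
    intro t d t' d' ht hd
    have e1 := ballQ_smooth783 t₀ d₀ (le_max_right NQ N) t d t' d' ht hd
    have e2 := smooth_mono783 (le_max_left NQ N) hQ t d t' d' ht hd
    simp only [hPdef]
    rw [e1, e2]
  obtain ⟨m₂', hm₂', hcb⟩ := hCut k q hk m₂ f₂ h2b h2f (max NQ N) P hP
  set M : ℕ := max m₁ m₂' with hM
  have hm₁M : m₁ ≤ M := le_max_left _ _
  have hm₂'M : m₂' ≤ M := le_max_right _ _
  have hm₂M : m₂ ≤ M := hm₂'.trans hm₂'M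
  obtain ⟨κ₁, hκ₁, hL₁⟩ := hLvl k q hk m₁ M hm₁M
  obtain ⟨κ₂, hκ₂, hL₂⟩ := hLvl k q hk m₂ M hm₂M
  set g₁ : GL (Fin 2) k → ℂ := (κ₁ : ℂ)⁻¹ • f₁ with hg₁
  set g₂ : GL (Fin 2) k → ℂ := (κ₂ : ℂ)⁻¹ • cutOff783 P f₂ with hg₂
  have hg₁b : IsBiInv (InU M) g₁ := isBiInv_smul783 _ (isBiInv_mono783 hm₁M h1b)
  have hg₂b : IsBiInv (InU M) g₂ := isBiInv_smul783 _ (isBiInv_mono783 hm₂'M hcb)
  have hg₁f : HasFinSupp (InU M) g₁ := hasFinSupp_smul783 _ (hFin k q hk m₁ M f₁ hm₁M h1f)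
  have hg₂f : HasFinSupp (InU M) g₂ :=
    hasFinSupp_smul783 _ (hFin k q hk m₂ M _ hm₂M (hasFinSupp_cutOff783 P h2f))
  have hfb : IsBiInv (InU M) (g₁ + g₂) := isBiInv_add783 hg₁b hg₂b
  -- values of `g₁`, `g₂` on the classes
  have hg₁0 : ∀ g, ¬ QOn783 Q g → g₁ g = 0 := by
    intro g hg
    have : f₁ g = 0 := by
      by_contra h0
      exact hg (h1s g h0)
    simp [hg₁, this]
  have hg₂0 : ∀ g, QOn783 Q g → g₂ g = 0 := by
    intro g hg
    have : cutOff783 P f₂ g = 0 := by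
      unfold cutOff783
      rw [if_neg]
      intro hPg
      exact hPg.2 hg
    simp [hg₂, this]
  have hg₂1 : ∀ g, QOn783 (ballQ783 t₀ d₀ N) g → ¬ QOn783 Q g →
      g₂ g = ((κ₂ : ℂ)⁻¹ • f₂) g := by
    intro g hg hQg
    have : cutOff783 P f₂ g = f₂ g := by
      unfold cutOff783
      rw [if_pos]
      exact ⟨hg, hQg⟩
    simp [hg₂, this]
  -- the two key facts
  have key1 : ∀ (γ : GL (Fin 2) k) (c' : ℂ), IsReg γ → QOn783 Q γ →
      IsOrbSum M (g₁ + g₂) γ c' → IsOrbSum m₁ f₁ γ c' := by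
    intro γ c' hγ hQγ hc'
    have h0 : IsOrbSum M g₂ γ 0 :=
      orbSum_zero783 M fun y hy => hg₂0 y ((qOn_class783 Q hy).2 hQγ)
    obtain ⟨d₁, hd₁⟩ := orbEx783 hEx hk hg₁b hg₁f hγ
    have hsum := hAdd k M g₁ g₂ hg₁b hg₂b γ d₁ 0 hd₁ h0
    have : c' = d₁ + 0 := orbUniq783 hUniq hfb hc' hsum
    rw [add_zero] at this
    rw [this]
    exact descend_level783 hEx hk hκ₁ hL₁ h1b h1f hγ hd₁
  have key2 : ∀ (γ : GL (Fin 2) k) (c' : ℂ), IsReg γ → QOn783 (ballQ783 t₀ d₀ N) γ →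
      ¬ QOn783 Q γ → IsOrbSum M (g₁ + g₂) γ c' → IsOrbSum m₂ f₂ γ c' := by
    intro γ c' hγ hBγ hQγ hc'
    have h0 : IsOrbSum M g₁ γ 0 :=
      orbSum_zero783 M fun y hy => hg₁0 y fun hQy => hQγ ((qOn_class783 Q hy).1 hQy)
    obtain ⟨d₂, hd₂⟩ := orbEx783 hEx hk hg₂b hg₂f hγ
    have hsum := hAdd k M g₁ g₂ hg₁b hg₂b γ 0 d₂ h0 hd₂
    have : c' = 0 + d₂ := orbUniq783 hUniq hfb hc' hsum
    rw [zero_add] at this
    rw [this]
    have hd₂' : IsOrbSum M ((κ₂ : ℂ)⁻¹ • f₂) γ d₂ :=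
      orbSum_congr783 (fun y hy => hg₂1 y ((qOn_class783 _ hy).2 hBγ)
        fun hQy => hQγ ((qOn_class783 Q hy).1 hQy)) hd₂
    exact descend_level783 hEx hk hκ₂ hL₂ h2b h2f hγ hd₂'
  refine ⟨M, g₁ + g₂, hfb, hasFinSupp_add783 hg₁f hg₂f, ⟨?_, ?_⟩, ?_⟩
  · intro δ γ c c' hγ hPγ hconj hTO hO
    by_cases hQγ : QOn783 Q γ
    · exact h1m.1 δ γ c c' hγ hQγ hconj hTO (key1 γ c' hγ hQγ hO)
    · have hBγ : QOn783 (ballQ783 t₀ d₀ N) γ := hPγ.resolve_right hQγ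
      exact h2m.1 δ γ c c' hγ hBγ hconj hTO (key2 γ c' hγ hBγ hQγ hO)
  · intro γ c' hγ hPγ hnn hO
    by_cases hQγ : QOn783 Q γ
    · exact h1m.2 γ c' hγ hQγ hnn (key1 γ c' hγ hQγ hO)
    · have hBγ : QOn783 (ballQ783 t₀ d₀ N) γ := hPγ.resolve_right hQγ
      exact h2m.2 γ c' hγ hBγ hnn (key2 γ c' hγ hBγ hQγ hO)
  · intro g hg
    by_cases hQg : QOn783 Q g
    · exact Or.inr hQg
    · left
      have h1 : g₁ g = 0 := hg₁0 g hQg
      have h2 : g₂ g ≠ 0 := by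
        intro h2
        apply hg
        simp [h1, h2]
      by_contra hB
      apply h2
      have : cutOff783 P f₂ g = 0 := by
        unfold cutOff783
        rw [if_neg]
        intro hPg
        exact hB hPg.1
      simp [hg₂, this]

/-- The union of the balls `B(p, exp(-N p))`, `p ∈ J`. -/
def unionQ783 (N : k → k → ℤ) (J : Finset (k × k)) : k → k → Prop :=
  fun t d => ∃ p ∈ J, ballQ783 p.1 p.2 (N p.1 p.2) t d

/-- **Patching**: finitely many local solutions give a solution on the union of their balls,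
supported in the union. -/
theorem patch783 (hEx : OrbSumExC) (hUniq : OrbSumUniqC) (hCut : CutC783)
    (hFin : FinSuppLvlC783) (hLvl : LvlC783) (hAdd : AddC783)
    {q : ℕ} (hk : IsLocalField k q)
    {l : ℕ} {i : k →+* k'} {s : k' ≃+* k'} {n : ℕ} {φ : GL (Fin 2) k' → ℂ}
    (N : k → k → ℤ) (J : Finset (k × k))
    (hJ : ∀ p ∈ J, ∃ (m : ℕ) (f : GL (Fin 2) k → ℂ),
      IsLocSol783 l i s n φ p.1 p.2 (N p.1 p.2) m f) :
    ∃ (NQ : ℤ) (m : ℕ) (f : GL (Fin 2) k → ℂ), IsSmoothPred783 NQ (unionQ783 N J) ∧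
      IsBiInv (InU m) f ∧ HasFinSupp (InU m) f ∧
      MatchOn783 l i s n φ m f (QOn783 (unionQ783 N J)) ∧
      ∀ g, f g ≠ 0 → QOn783 (unionQ783 N J) g := by
  classical
  induction J using Finset.induction_on with
  | empty =>
    refine ⟨0, 0, 0, ?_, ?_, ?_, ⟨?_, ?_⟩, ?_⟩
    · intro t d t' d' _ _
      simp [unionQ783]
    · intro u u' g _ _
      rfl
    · exact ⟨∅, fun g hg => absurd rfl hg⟩
    · intro δ γ c c' _ hP
      obtain ⟨p, hp, -⟩ := hP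
      exact absurd hp (Finset.notMem_empty p)
    · intro γ c' _ hP
      obtain ⟨p, hp, -⟩ := hP
      exact absurd hp (Finset.notMem_empty p)
    · intro g hg
      exact absurd rfl hg
  | insert p J' _ ih =>
    obtain ⟨NQ, m₁, f₁, hQ, h1b, h1f, h1m, h1s⟩ :=
      ih fun p' hp' => hJ p' (Finset.mem_insert_of_mem hp')
    obtain ⟨m₂, f₂, h2⟩ := hJ p (Finset.mem_insert_self p J')
    obtain ⟨m, f, hb, hf, hm, hs⟩ :=
      step783 hEx hUniq hCut hFin hLvl hAdd hk hQ h1b h1f h1m h1s h2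
    have hiff : ∀ t d : k, unionQ783 N (insert p J') t d ↔
        (ballQ783 p.1 p.2 (N p.1 p.2) t d ∨ unionQ783 N J' t d) := by
      intro t d
      unfold unionQ783
      rw [Finset.exists_mem_insert]
    refine ⟨max NQ (N p.1 p.2), m, f, ?_, hb, hf, ?_, ?_⟩
    · intro t d t' d' ht hd
      rw [hiff, hiff]
      have e1 := ballQ_smooth783 p.1 p.2 (le_max_right NQ (N p.1 p.2)) t d t' d' ht hd
      have e2 := smooth_mono783 (le_max_left NQ (N p.1 p.2)) hQ t d t' d' ht hd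
      rw [e1, e2]
    · exact matchOn_mono783 (fun γ hγ => (hiff _ _).1 hγ) hm
    · intro g hg
      exact (hiff _ _).2 (hs g hg)

end Patch

/-! ## The tops -/

/-- Local matching at every point from the regular and the central case. -/
theorem locMatch_of783 (hReg : LocRegC783) (hCen : LocCenC783)
    {k k' : Type} [Field k] [Field k'] [Valued k Γ₀] [Valued k' Γ₀] {q l e : ℕ}
    {i : k →+* k'} {s : k' ≃+* k'} {n : ℕ} {φ : GL (Fin 2) k' → ℂ}
    (hd : BadData783 k k' q l e i s n φ) (t₀ d₀ : k) (hd₀ : d₀ ≠ 0) :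
    ∃ (N : ℤ) (m : ℕ) (f : GL (Fin 2) k → ℂ), IsLocSol783 l i s n φ t₀ d₀ N m f := by
  by_cases h : t₀ ^ 2 - 4 * d₀ = 0
  · have hc0 : CharZero k := hd.hk.char0
    have h2 : (2 : k) ≠ 0 := two_ne_zero
    have ht : 2 * (t₀ / 2) = t₀ := mul_div_cancel₀ t₀ h2
    have hdz : (t₀ / 2) ^ 2 = d₀ := by
      have h4 : (4 : k) ≠ 0 := by
        have : (4 : k) = 2 * 2 := by norm_num
        rw [this]
        exact mul_ne_zero h2 h2
      rw [div_pow]
      have e : (2 : k) ^ 2 = 4 := by norm_num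
      rw [e, div_eq_iff h4]
      linear_combination h
    have hz : t₀ / 2 ≠ 0 := by
      intro h0
      apply hd₀
      rw [← hdz, h0]
      simp
    have := hCen k k' q l e i s n φ hd (t₀ / 2) hz
    rwa [ht, hdz] at this
  · exact hReg k k' q l e i s n φ hd t₀ d₀ hd₀ h

/-- **The central case from its three sub-cases.** -/
theorem locCen_of_cases783 (hN : CenNormC783) (hO : CenOddC783) (hQ : CenQuatC783) :
    LocCenC783 := by
  intro k k' _ _ _ _ q l e i s n φ hd z hz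
  by_cases hnorm : IsFieldNorm783 l i s z
  · exact hN k k' q l e i s n φ hd z hz hnorm
  · by_cases hl2 : l = 2
    · subst hl2
      exact hQ k k' q e i s n φ hd z hz hnorm
    · obtain ⟨N, hNn⟩ := hO k k' q l e i s hd.hk hd.hk' hd.ext hd.prime hl2 z hz hnorm
      refine ⟨N, 0, 0, ?_, ?_, ⟨?_, ?_⟩⟩
      · intro u u' g _ _
        rfl
      · exact ⟨∅, fun g hg => absurd rfl hg⟩
      · intro δ γ c c' _ hP hconj _ _
        exact absurd ⟨δ, hconj⟩ (hNn γ hP)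
      · intro γ c' _ _ _ hO'
        exact orbSum_eq_zero783 (fun _ _ => rfl) hO'

/-- **TOP of T6.18**: `BadMatchC` from the sub-leaves. -/
theorem badMatch_of_leaves783 (hEx : OrbSumExC) (hUniq : OrbSumUniqC) (hCover : CoverC783)
    (hCpt : CptC783) (hCut : CutC783) (hFin : FinSuppLvlC783) (hLvl : LvlC783)
    (hAdd : AddC783) (hReg : LocRegC783) (hCen : LocCenC783) : BadMatchC := by
  intro k k' _ _ _ _ q l e i s hk hk' hext hl n φ hφb hφf
  classical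
  have hd : BadData783 k k' q l e i s n φ := ⟨hk, hk', hext, hl, hφb, hφf⟩
  obtain ⟨B, hB⟩ := hCpt k k' q l e i s n φ hd
  have hloc : ∀ t₀ d₀ : k, d₀ ≠ 0 →
      ∃ (N : ℤ) (m : ℕ) (f : GL (Fin 2) k → ℂ), IsLocSol783 l i s n φ t₀ d₀ N m f :=
    fun t₀ d₀ h => locMatch_of783 hReg hCen hd t₀ d₀ h
  let N : k → k → ℤ := fun t d => if h : d ≠ 0 then (hloc t d h).choose else 0
  obtain ⟨J, hJ1, hJ2⟩ := hCover k q hk B N
  have hJ : ∀ p ∈ J, ∃ (m : ℕ) (f : GL (Fin 2) k → ℂ),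
      IsLocSol783 l i s n φ p.1 p.2 (N p.1 p.2) m f := by
    intro p hp
    have hp2 : p.2 ≠ 0 := by
      intro h0
      have := hJ1 p hp
      rw [h0, map_zero] at this
      exact absurd this (not_le.mpr WithZero.exp_pos)
    have hN : N p.1 p.2 = (hloc p.1 p.2 hp2).choose := dif_pos hp2
    rw [hN]
    exact (hloc p.1 p.2 hp2).choose_spec
  obtain ⟨NQ, m, f, -, hb, hf, hm, hs⟩ := patch783 hEx hUniq hCut hFin hLvl hAdd hk N J hJ
  have hvan : ∀ (γ : GL (Fin 2) k) (c' : ℂ), ¬ QOn783 (unionQ783 N J) γ →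
      IsOrbSum m f γ c' → c' = 0 := by
    intro γ c' hQ hO
    refine orbSum_eq_zero783 (fun y hy => ?_) hO
    by_contra h0
    exact hQ ((qOn_class783 _ hy).1 (hs y h0))
  refine ⟨m, f, hb, hf, ?_, ?_⟩
  · intro δ γ c c' hγ hconj hTO hO
    by_cases hQ : QOn783 (unionQ783 N J) γ
    · exact hm.1 δ γ c c' hγ hQ hconj hTO hO
    · have hc' : c' = 0 := hvan γ c' hQ hO
      rw [hc']
      by_contra hc
      obtain ⟨h1, h2, h3⟩ := hB δ γ c hconj hTO hc
      obtain ⟨p, hp, hp1, hp2⟩ := hJ2 _ _ h1 h2 h3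
      exact hQ ⟨p, hp, hp1, hp2⟩
  · intro γ c' hγ hnn hO
    by_cases hQ : QOn783 (unionQ783 N J) γ
    · exact hm.2 γ c' hγ hQ hnn hO
    · exact hvan γ c' hQ hO

end Fermat.Agent.LT.T6.H783

end
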