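import Fermat.Agent.LT.T6.H783.CenSpec

/-!
# Row LT, tower T6, leaf T6.18g `CenNormC783`: the PROVED glue (helper783)

* `cenOne_of_leaves783 : NormInjC → DescC783 → PowC783 → CenOneC783`
* `cenNorm_of_leaves783 : TranslC783 → NormInjC → DescC783 → PowC783 → CenNormC783`
-/

set_option autoImplicit false

open scoped Matrix

noncomputable section

namespace Fermat.Agent.LT.T6.H783

open Fermat.Agent.LT.T6

section Lemmas

variable {R : Type} [CommRing R]

/-- The norm of a `σ`-fixed element is its power. -/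
theorem twNorm_fixed783 (s : R ≃+* R) {x : GL (Fin 2) R} (hx : glAut s x = x) (l : ℕ) :
    twNorm s l x = x ^ l := by
  unfold twNorm
  induction l with
  | zero => simp [twN]
  | succ n ih =>
    change x * glAut s (twN (glAut s) n x) = x ^ (n + 1)
    rw [ih, map_pow, hx, pow_succ']

/-- The twisted orbit sum only depends on the `s`-conjugacy class. -/
theorem twOrb_of_twConj783 {k' : Type} [Field k'] [Valued k' Γ₀] (s : k' ≃+* k') {n : ℕ}
    {φ : GL (Fin 2) k' → ℂ} {δ δ' : GL (Fin 2) k'} {c : ℂ} (h : IsTwConj s δ δ')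
    (hc : IsTwOrbSum s n φ δ c) : IsTwOrbSum s n φ δ' c := by
  obtain ⟨g, rfl⟩ := h
  have key : ∀ y : GL (Fin 2) k', (∃ x : GL (Fin 2) k', y = x⁻¹ * δ * glAut s x) ↔
      ∃ x : GL (Fin 2) k', y = x⁻¹ * (g⁻¹ * δ * glAut s g) * glAut s x := by
    intro y
    constructor
    · rintro ⟨x, rfl⟩
      refine ⟨g⁻¹ * x, ?_⟩
      simp [mul_assoc]
    · rintro ⟨x, rfl⟩
      refine ⟨g * x, ?_⟩
      simp [mul_assoc]
  obtain ⟨Rf, h1, h2, h3, h4⟩ := hc
  exact ⟨Rf, fun y hy => (key y).1 (h1 y hy), h2, fun y hy hne => h3 y ((key y).2 hy) hne, h4⟩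

end Lemmas

section Disc

variable {K : Type} [Field K]

theorem disc_conj783 {a b : GL (Fin 2) K} (h : IsConj a b) : disc a = disc b := by
  obtain ⟨c, hc⟩ := isConj_iff.1 h
  subst hc
  unfold disc
  have htr : ((c * a * c⁻¹ : GL (Fin 2) K) : Matrix (Fin 2) (Fin 2) K).trace
      = (a : Matrix (Fin 2) (Fin 2) K).trace := by
    have : ((c * a * c⁻¹ : GL (Fin 2) K) : Matrix (Fin 2) (Fin 2) K)
        = c.val * (a.val * (c⁻¹ : GL (Fin 2) K).val) := by
      simp [mul_assoc]
    rw [this, Matrix.trace_mul_comm, mul_assoc]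
    have h2 : (c⁻¹ : GL (Fin 2) K).val * c.val = 1 := by
      rw [← Units.val_mul]; simp
    rw [h2, mul_one]
  have hdet : ((c * a * c⁻¹ : GL (Fin 2) K) : Matrix (Fin 2) (Fin 2) K).det
      = (a : Matrix (Fin 2) (Fin 2) K).det := by
    have : ((c * a * c⁻¹ : GL (Fin 2) K) : Matrix (Fin 2) (Fin 2) K)
        = c.val * a.val * (c⁻¹ : GL (Fin 2) K).val := by
      simp
    rw [this, Matrix.det_mul, Matrix.det_mul]
    have h2 : c.val.det * (c⁻¹ : GL (Fin 2) K).val.det = 1 := by
      rw [← Matrix.det_mul, ← Units.val_mul]; simp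
    calc c.val.det * a.val.det * (c⁻¹ : GL (Fin 2) K).val.det
        = (c.val.det * (c⁻¹ : GL (Fin 2) K).val.det) * a.val.det := by ring
      _ = a.val.det := by rw [h2, one_mul]
  rw [htr, hdet]

theorem disc_map783 {K' : Type} [Field K'] (i : K →+* K') (γ : GL (Fin 2) K) :
    disc (Matrix.GeneralLinearGroup.map i γ) = i (disc γ) := by
  unfold disc
  have h1 : ((Matrix.GeneralLinearGroup.map i γ : GL (Fin 2) K') : Matrix (Fin 2) (Fin 2) K')
      = (γ : Matrix (Fin 2) (Fin 2) K).map i := rfl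
  rw [h1]
  have htr : ((γ : Matrix (Fin 2) (Fin 2) K).map i).trace
      = i (γ : Matrix (Fin 2) (Fin 2) K).trace := by
    simp [Matrix.trace, Fin.sum_univ_two]
  have hdet : ((γ : Matrix (Fin 2) (Fin 2) K).map i).det
      = i (γ : Matrix (Fin 2) (Fin 2) K).det := by
    simp [Matrix.det_fin_two]
  rw [htr, hdet, map_sub, map_mul, map_pow, map_ofNat]

theorem isReg_of_conj_map783 {K' : Type} [Field K'] (i : K →+* K') {γ : GL (Fin 2) K}
    (hγ : IsReg γ) {x : GL (Fin 2) K'}
    (hx : IsConj x (Matrix.GeneralLinearGroup.map i γ)) : IsReg x := by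
  unfold IsReg at hγ ⊢
  rw [disc_conj783 hx, disc_map783]
  exact hγ.map i

theorem glAut_map783 {K' : Type} [Field K'] (i : K →+* K') (s : K' ≃+* K')
    (hfix : ∀ x : K, s (i x) = i x) (h : GL (Fin 2) K) :
    glAut s (Matrix.GeneralLinearGroup.map i h) = Matrix.GeneralLinearGroup.map i h := by
  apply Units.ext
  ext a b
  simp [glAut, hfix]

end Disc

/-- **Local matching at the identity from descent and push-forward.** -/
theorem cenOne_of_leaves783 (hNI : NormInjC) (hDesc : DescC783) (hPow : PowC783) :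
    CenOneC783 := by
  intro k k' _ _ _ _ q l e i s n φ hd
  obtain ⟨N₀, m, ψ, hψb, hψf, hD⟩ := hDesc k k' q l e i s n φ hd
  obtain ⟨N₁, m', f, hfb, hff, hP⟩ := hPow k q l hd.hk hd.prime.pos N₀ m ψ hψb hψf
  have hN : ∀ h : GL (Fin 2) k, twNorm s l (Matrix.GeneralLinearGroup.map i h)
      = Matrix.GeneralLinearGroup.map i (h ^ l) := by
    intro h
    rw [twNorm_fixed783 s (glAut_map783 i s hd.ext.cyc.fix_i h), map_pow]
  refine ⟨N₁, m', f, hfb, hff, ⟨?_, ?_⟩⟩
  · intro δ γ c c' hγ hball hconj hTO hO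
    obtain ⟨h, hhl, hhb, hh⟩ := hP γ hγ hball
    have hO' := hh c' hO
    have hreg' : IsReg (twNorm s l δ) := isReg_of_conj_map783 i hγ hconj
    have htc : IsTwConj s δ (Matrix.GeneralLinearGroup.map i h) :=
      hNI k k' l i s hd.ext.cyc δ (Matrix.GeneralLinearGroup.map i h) hreg'
        (by rw [hN, hhl]; exact hconj)
    have hTO' : IsTwOrbSum s n φ (Matrix.GeneralLinearGroup.map i h) c :=
      twOrb_of_twConj783 s htc hTO
    exact hD h c c' hhb (by rw [hhl]; exact hγ) hTO' hO'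
  · intro γ c' hγ hball hnn hO
    exfalso
    obtain ⟨h, hhl, -, -⟩ := hP γ hγ hball
    apply hnn
    refine ⟨Matrix.GeneralLinearGroup.map i h, ?_⟩
    rw [hN, hhl]

/-- **T6.18g from the second-level leaves.** -/
theorem cenNorm_of_leaves783 (hT : TranslC783) (hNI : NormInjC) (hDesc : DescC783)
    (hPow : PowC783) : CenNormC783 :=
  hT (cenOne_of_leaves783 hNI hDesc hPow)

end Fermat.Agent.LT.T6.H783

end
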