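import Fermat.Agent.LT.T6.H783.DescSpec
import Fermat.Agent.LT.T6.H783.CenTop

/-!
# Row LT, tower T6, leaf T6.18g2 `DescC783`: the PROVED glue (helper783)

* `descC_of_leaves783 : ProperC783 → DecompC783 → DescC783`
* `descC_of_subleaves783` : from the six sub-leaves.
* `cenNorm_of_subleaves783` : `CenNormC783` from all its leaves.
-/

set_option autoImplicit false

open scoped Matrix

noncomputable section

namespace Fermat.Agent.LT.T6.H783

open Fermat.Agent.LT.T6

theorem descC_of_leaves783 (hP : ProperC783) (hD : DecompC783) : DescC783 := by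
  intro k k' _ _ _ _ q l e i s n φ hd
  obtain ⟨N₀, Y, hY⟩ := hP k k' q l e i s n φ hd
  obtain ⟨m, ψ, hb, hf, hm⟩ := hD k k' q l e i s n φ hd N₀ Y hY
  exact ⟨N₀, m, ψ, hb, hf, hm⟩

theorem descC_of_subleaves783 (hPG : ProperGlueC783) (hRB : RootBoundC783) (hBH : BH90C783)
    (hDG : DecompGlueC783) (hFib : FibreC783) (hGL : GenLvlC783) (hEx : OrbSumExC)
    (hUniq : OrbSumUniqC) (hAdd : AddC783) : DescC783 :=
  descC_of_leaves783 (hPG hRB hBH) (hDG hFib hGL hEx hUniq hAdd)

theorem cenNorm_of_subleaves783 (hT : TranslC783) (hNI : NormInjC) (hPow : PowC783)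
    (hPG : ProperGlueC783) (hRB : RootBoundC783) (hBH : BH90C783)
    (hDG : DecompGlueC783) (hFib : FibreC783) (hGL : GenLvlC783) (hEx : OrbSumExC)
    (hUniq : OrbSumUniqC) (hAdd : AddC783) : CenNormC783 :=
  cenNorm_of_leaves783 hT hNI
    (descC_of_subleaves783 hPG hRB hBH hDG hFib hGL hEx hUniq hAdd) hPow

end Fermat.Agent.LT.T6.H783

end
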