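import Fermat.Agent.LT.T6.H783.CenSpec

/-!
# Row LT, tower T6, leaf T6.18g2 `DescC783` (twisted descent `G' ⇝ G` at the identity):
THIRD-LEVEL SUB-SPEC (helper783)

OFF-MAIN.  Definitions + frozen Props.  PROVED glue in `DescTop.lean`:
`descC_of_leaves783 : ProperC783 → DecompC783 → DescC783`.

`G = GL₂(k) ⊂ G' = GL₂(k')` via `ι = GL.map i`, `σ = glAut s`, `U' = U'(n)`.

## Plan
* `ProperC783` (PROPERNESS): there are `N₀` and a finite `Y ⊂ G'` such that for `h ∈ G` in the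
  `χ`-ball `V(N₀)` around `(2, 1)`, every `x` with `φ(x⁻¹ h σ(x)) ≠ 0` lies in `G y U'`, `y ∈ Y`.
  - `RootBoundC783` (Cayley–Hamilton, NO root extraction): `w = x⁻¹ h σ(x)`, `N w = x⁻¹ h^l x`,
    `h' = x⁻¹ h x`, `h'^l = S h' + Q` with `S = P_l(t, d)`, `Q = Q_l(t, d)` integer polynomials in
    `(t, d) = χ(h)`, `P_l(2, 1) = l`; for `N₀ > ord(l)`: `v(S) = v(l)` and `h' = S⁻¹ (N w - Q)` is
    bounded by the bound of `w`; the same for `h'⁻¹`; so the cocycle `x⁻¹ σ(x) = h'⁻¹ w` is bounded.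
  - `BH90C783` (BOUNDED HILBERT 90): `x⁻¹ σ(x)` bounded `⇒ x ∈ G · (finitely many y U')`.
    Lattices: `Λ' = x 𝒪'²` is almost `σ`-stable, `Λ'' = ∑_j σ^j Λ'` is `σ`-stable,
    `Λ' ⊂ Λ'' ⊂ ϖ'^{-(l-1)A} Λ'`, and for a `k`-basis `(b_j)` of `k'` in `𝒪'` with dual basis
    `(b_j^*)` for the trace form: `λ = ∑_j b_j^* tr(b_j λ)`, so
    `Λ'' ⊂ ∑_j b_j^* (Λ'' ∩ k²) 𝒪'`; `Λ'' ∩ k² = g 𝒪²`.
* `DecompC783` (ORBIT DECOMPOSITION): for such `(N₀, Y)` there are `m`, `ψ` with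
  `TO_h(φ) = O_h(ψ)`: `ψ = ∑_{y} [Γ_y : U(m)]⁻¹ φ_y` (after pruning `Y` to distinct double cosets),
  `φ_y(g) = φ(y⁻¹ g σ(y))`, `Γ_y = G ∩ y U' y⁻¹`.
  - `FibreC783`: `TO_h(φ) = ∑_y O^{Γ_y}_h(φ_y)` (orbits of `U'` in the `σ`-class of `h` are the pairs
    (`y`, orbit of `Γ_y` in the class of `h`); the twisted centraliser of `h₁ ∈ G` is `T_{h₁}`,
    `TwCentC`; the indices agree).
  - `GenLvlC783`: `O^{(m)}_h(ψ) = [Γ : U(m)] · O^{Γ}_h(ψ)` for a compact open subgroup `Γ ⊃ U(m)`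
    (no normality: `∑_{(T∩Γ)\Γ/U(m)} [T ∩ Γ : T ∩ g U(m) g⁻¹] = [Γ : U(m)]`).
-/

set_option autoImplicit false

open scoped Matrix

noncomputable section

namespace Fermat.Agent.LT.T6.H783

open Fermat.Agent.LT.T6

/-! ## Definitions -/

/-- The entries of `g` and of `g⁻¹` are bounded by `exp A`. -/
def EntryBdd783 {K : Type} [Field K] [Valued K Γ₀] (A : ℤ) (g : GL (Fin 2) K) : Prop :=
  ∀ a b : Fin 2, Valued.v ((g : Matrix (Fin 2) (Fin 2) K) a b) ≤ WithZero.exp A ∧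
    Valued.v (((g⁻¹ : GL (Fin 2) K) : Matrix (Fin 2) (Fin 2) K) a b) ≤ WithZero.exp A

/-- `x ∈ G y U'(n)`. -/
def InDC783 {k k' : Type} [Field k] [Field k'] [Valued k' Γ₀] (i : k →+* k') (n : ℕ)
    (y x : GL (Fin 2) k') : Prop :=
  ∃ (g : GL (Fin 2) k) (u : GL (Fin 2) k'), InU n u ∧
    x = Matrix.GeneralLinearGroup.map i g * y * u

/-- `(N₀, Y)` is a PROPER COVER: for `h ∈ G` in the `χ`-ball of radius `exp(-N₀)` around
`(2, 1)`, every `x` with `φ(x⁻¹ h σ(x)) ≠ 0` lies in `G y U'(n)` for some `y ∈ Y`. -/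
def IsProperCover783 {k k' : Type} [Field k] [Field k'] [Valued k Γ₀] [Valued k' Γ₀]
    (i : k →+* k') (s : k' ≃+* k') (n : ℕ) (φ : GL (Fin 2) k' → ℂ) (N₀ : ℤ)
    (Y : Finset (GL (Fin 2) k')) : Prop :=
  ∀ (h : GL (Fin 2) k) (x : GL (Fin 2) k'), InChiBall783 2 1 N₀ h →
    φ (x⁻¹ * Matrix.GeneralLinearGroup.map i h * glAut s x) ≠ 0 → ∃ y ∈ Y, InDC783 i n y x

/-- `Γ_y = G ∩ y U'(n) y⁻¹`. -/
def GamY783 {k k' : Type} [Field k] [Field k'] [Valued k' Γ₀] (i : k →+* k') (n : ℕ)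
    (y : GL (Fin 2) k') (g : GL (Fin 2) k) : Prop :=
  InU n (y⁻¹ * Matrix.GeneralLinearGroup.map i g * y)

/-- `φ_y(g) = φ(y⁻¹ g σ(y))`. -/
def phiY783 {k k' : Type} [Field k] [Field k'] (i : k →+* k') (s : k' ≃+* k')
    (φ : GL (Fin 2) k' → ℂ) (y : GL (Fin 2) k') (g : GL (Fin 2) k) : ℂ :=
  φ (y⁻¹ * Matrix.GeneralLinearGroup.map i g * glAut s y)

/-- The orbit sum of `ψ` at `h` for conjugation by the subgroup `Γ` of `GL₂(k)`. -/
def IsOrbSumGam783 {k : Type} [Field k] [Valued k Γ₀] (Γ : GL (Fin 2) k → Prop)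
    (ψ : GL (Fin 2) k → ℂ) (h : GL (Fin 2) k) (c : ℂ) : Prop :=
  IsOrbSumGen (glAut (RingEquiv.refl k)) Γ (InTwCentC (RingEquiv.refl k)) ψ h c

/-! ## First split: properness and orbit decomposition -/

/-- **T6.18g2-P (properness).** -/
def ProperC783 : Prop :=
  ∀ (k k' : Type) [Field k] [Field k'] [Valued k Γ₀] [Valued k' Γ₀] (q l e : ℕ)
    (i : k →+* k') (s : k' ≃+* k') (n : ℕ) (φ : GL (Fin 2) k' → ℂ),
    BadData783 k k' q l e i s n φ →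
      ∃ (N₀ : ℤ) (Y : Finset (GL (Fin 2) k')), IsProperCover783 i s n φ N₀ Y

/-- **T6.18g2-D (orbit decomposition).** -/
def DecompC783 : Prop :=
  ∀ (k k' : Type) [Field k] [Field k'] [Valued k Γ₀] [Valued k' Γ₀] (q l e : ℕ)
    (i : k →+* k') (s : k' ≃+* k') (n : ℕ) (φ : GL (Fin 2) k' → ℂ),
    BadData783 k k' q l e i s n φ →
    ∀ (N₀ : ℤ) (Y : Finset (GL (Fin 2) k')), IsProperCover783 i s n φ N₀ Y →
      ∃ (m : ℕ) (ψ : GL (Fin 2) k → ℂ), IsBiInv (InU m) ψ ∧ HasFinSupp (InU m) ψ ∧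
        ∀ (h : GL (Fin 2) k) (c c' : ℂ), InChiBall783 2 1 N₀ h → IsReg (h ^ l) →
          IsTwOrbSum s n φ (Matrix.GeneralLinearGroup.map i h) c → IsOrbSum m ψ h c' → c = c'

/-! ## Sub-leaves of properness -/

/-- **T6.18g2-P1 (the cocycle is bounded; Cayley–Hamilton).**  For `h ∈ G` near `1`
(`N₀ > ord(l)`) and `w = x⁻¹ h σ(x)` bounded, the cocycle `x⁻¹ σ(x)` is bounded. -/
def RootBoundC783 : Prop :=
  ∀ (k k' : Type) [Field k] [Field k'] [Valued k Γ₀] [Valued k' Γ₀] (q l e : ℕ)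
    (i : k →+* k') (s : k' ≃+* k'),
    IsLocalField k q → IsLocalField k' (q ^ (l / e)) → IsLocalExt k k' l e i s → l.Prime →
    ∃ N₀ : ℤ, ∀ A : ℤ, ∃ A' : ℤ, ∀ (h : GL (Fin 2) k) (x : GL (Fin 2) k'),
      InChiBall783 2 1 N₀ h →
      EntryBdd783 A (x⁻¹ * Matrix.GeneralLinearGroup.map i h * glAut s x) →
      EntryBdd783 A' (x⁻¹ * glAut s x)

/-- **T6.18g2-P2 (bounded Hilbert 90).**  The `x ∈ G'` with bounded cocycle `x⁻¹ σ(x)` lie in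
finitely many double cosets `G y U'(n)`. -/
def BH90C783 : Prop :=
  ∀ (k k' : Type) [Field k] [Field k'] [Valued k Γ₀] [Valued k' Γ₀] (q l e : ℕ)
    (i : k →+* k') (s : k' ≃+* k'),
    IsLocalField k q → IsLocalField k' (q ^ (l / e)) → IsLocalExt k k' l e i s → l.Prime →
    ∀ (n : ℕ) (A : ℤ), ∃ Y : Finset (GL (Fin 2) k'), ∀ x : GL (Fin 2) k',
      EntryBdd783 A (x⁻¹ * glAut s x) → ∃ y ∈ Y, InDC783 i n y x

/-- **T6.18g2-P0 (glue of properness)**: `φ` is supported on finitely many cosets, hence on a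
bounded set. -/
def ProperGlueC783 : Prop := RootBoundC783 → BH90C783 → ProperC783

/-! ## Sub-leaves of the orbit decomposition -/

/-- **T6.18g2-D1 (fibration of the twisted class over `G \ G' / U'`).**  `Y` a finite set of
representatives of DISTINCT double cosets `G y U'(n)` containing every `x` with
`φ(x⁻¹ h σ(x)) ≠ 0`, `h ^ l` regular: `TO_h(φ) = ∑_{y ∈ Y} O^{Γ_y}_h(φ_y)`. -/
def FibreC783 : Prop :=
  ∀ (k k' : Type) [Field k] [Field k'] [Valued k Γ₀] [Valued k' Γ₀] (q l e : ℕ)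
    (i : k →+* k') (s : k' ≃+* k') (n : ℕ) (φ : GL (Fin 2) k' → ℂ),
    BadData783 k k' q l e i s n φ →
    ∀ (Y : Finset (GL (Fin 2) k')), (∀ y ∈ Y, ∀ y' ∈ Y, InDC783 i n y y' → y = y') →
    ∀ h : GL (Fin 2) k, IsReg (h ^ l) →
      (∀ x : GL (Fin 2) k', φ (x⁻¹ * Matrix.GeneralLinearGroup.map i h * glAut s x) ≠ 0 →
        ∃ y ∈ Y, InDC783 i n y x) →
      ∀ (c : ℂ) (cs : GL (Fin 2) k' → ℂ),
        IsTwOrbSum s n φ (Matrix.GeneralLinearGroup.map i h) c →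
        (∀ y ∈ Y, IsOrbSumGam783 (GamY783 i n y) (phiY783 i s φ y) h (cs y)) →
        c = ∑ y ∈ Y, cs y

/-- **T6.18g2-D2 (level change for a compact open subgroup `Γ ⊃ U(m)`, no normality).**
`Γ` a subgroup of `GL₂(k)` with integral traces and unit determinants, containing `U(m)` with
finite index: there is `κ ≠ 0` (`= [Γ : U(m)]`) such that for `ψ` bi-`U(m)`-invariant and
invariant under conjugation by `Γ`, `h` regular: an orbit sum `c'` at level `m` gives an orbit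
sum `c` for `Γ` with `c' = κ c`. -/
def GenLvlC783 : Prop :=
  ∀ (k : Type) [Field k] [Valued k Γ₀] (q : ℕ), IsLocalField k q →
    ∀ (m : ℕ) (Γ : GL (Fin 2) k → Prop), Γ 1 → (∀ g g', Γ g → Γ g' → Γ (g * g')) →
      (∀ g, Γ g → Γ g⁻¹) → (∀ g, InU m g → Γ g) →
      (∀ g, Γ g → Valued.v (g : Matrix (Fin 2) (Fin 2) k).trace ≤ 1 ∧
        Valued.v (g : Matrix (Fin 2) (Fin 2) k).det = 1) →
      (∃ F : Finset (GL (Fin 2) k), ∀ g, Γ g → ∃ x ∈ F, ∃ u, InU m u ∧ g = x * u) →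
      ∃ κ : ℕ, κ ≠ 0 ∧ ∀ ψ : GL (Fin 2) k → ℂ, IsBiInv (InU m) ψ →
        (∀ g x, Γ g → ψ (g⁻¹ * x * g) = ψ x) →
        ∀ (h : GL (Fin 2) k) (c' : ℂ), IsReg h → IsOrbSum m ψ h c' →
          ∃ c : ℂ, IsOrbSumGam783 Γ ψ h c ∧ c' = (κ : ℂ) * c

/-- **T6.18g2-D0 (glue of the orbit decomposition)**: prune `Y` to distinct double cosets,
choose `m` with `U(m) ⊂ Γ_y` and `φ_y` bi-`U(m)`-invariant of finite support for all `y ∈ Y`,
`ψ = ∑_y κ_y⁻¹ φ_y`. -/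
def DecompGlueC783 : Prop :=
  FibreC783 → GenLvlC783 → OrbSumExC → OrbSumUniqC → AddC783 → DecompC783

end Fermat.Agent.LT.T6.H783

end
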