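import Fermat.Agent.LT.T6.H783.BadTop
import Fermat.Agent.LT.T6.H783.CenTop
import Fermat.Agent.LT.T6.H783.DescTop
import Fermat.Agent.LT.T6.H420.Cpt
import Fermat.Agent.LT.T6.H125.Cut
import Fermat.Agent.LT.T6.H777.Lvl
import Fermat.Agent.LT.T6.H811.Add
import Fermat.Agent.LT.T6.H962.CenOdd
import Fermat.Agent.LT.T6.H388.Transl
import Fermat.Agent.LT.T6.H863.RootBound
import Fermat.Agent.LT.T6.H372.ProperGlue
import Fermat.Agent.LT.T6.H944.OrbSumUniq
import Fermat.Agent.LT.T6.H848.NormInj
import Fermat.Agent.LT.T6.H717.BH90
import Fermat.Agent.LT.T6.H965.Cover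
import Fermat.Agent.LT.T6.H420.OrbSumExFull
import Fermat.Agent.LT.T6.H82.Fibre
import Fermat.Agent.LT.T6.H196.GenLvl
import Fermat.Agent.LT.T6.H846.DecompGlue
import Fermat.Agent.LT.T6.H820.PowTop
import Fermat.Agent.LT.T6.H333.RootFn
import Fermat.Agent.LT.T6.H777.PowRoot
import Fermat.Agent.LT.T6.H227.LocRegClosed

/-!
# Row LT, tower T6, leaf T6.18 `BadMatchC`: INTEGRATION of the delivered leaves (helper783)

State 14:50Z: every leaf of T6.18 is closed EXCEPT the quaternion case `CenQuatC783`
(T6.18i, row 1069, sub-architect helper385).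

* `locRegC783c : LocRegC783` (T6.18f CLOSED; helper179 tops, 166, 962, 568, 227, 706);
* `descC783c : DescC783` (T6.18g2 CLOSED; 372, 863, 717, 846, 82, 196);
* `powC783c : PowC783` (T6.18g3 CLOSED; helper820 tops, 333, 777);
* `cenNormC783c : CenNormC783` (T6.18g CLOSED; + 388, 848);
* `badMatch_of_cenQuat783 : CenQuatC783 → BadMatchC`.

All files of the authors are byte-identical copies.
-/

set_option autoImplicit false

noncomputable section

namespace Fermat.Agent.LT.T6.H783

open Fermat.Agent.LT.T6

/-- `ProperC783` (all leaves delivered). -/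
theorem properC783 : ProperC783 :=
  H372.properGlueC372 H863.rootBoundC_863 H717.bh90C717

/-- `DecompC783` (all leaves delivered). -/
theorem decompC783c : DecompC783 :=
  H846.decompGlueC846 H82.fibreC82 H196.genLvlC196 H420.orbSumExC420 H944.orbSumUniqC944
    H811.addC811

/-- **T6.18g2** `DescC783`, CLOSED. -/
theorem descC783c : DescC783 :=
  descC_of_leaves783 properC783 decompC783c

/-- **T6.18g3** `PowC783`, CLOSED. -/
theorem powC783c : PowC783 :=
  H820.powC_of_all820 H420.orbSumExC420 H777.lvlC777 H333.rootFnC333 H777.powRootFromFnC777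

/-- **T6.18g** `CenNormC783` (central point, `z` a norm), CLOSED. -/
theorem cenNormC783c : CenNormC783 :=
  cenNorm_of_leaves783 H388.translC388 H848.normInjC848 descC783c powC783c

/-- **T6.18f** `LocRegC783` (regular point), CLOSED. -/
theorem locRegC783c : LocRegC783 :=
  H227.locRegC227

/-- `CenNormC783` from its leaves (kept for the callers of the former integration). -/
theorem cenNorm_partial783 (hDec : DecompC783) (hPow : PowC783) : CenNormC783 :=
  cenNorm_of_leaves783 H388.translC388 H848.normInjC848
    (descC_of_leaves783 properC783 hDec) hPow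

/-- `BadMatchC` from the four leaves of the former integration (kept for its callers). -/
theorem badMatch_partial783 (hReg : LocRegC783) (hDec : DecompC783) (hPow : PowC783)
    (hQ : CenQuatC783) : BadMatchC :=
  badMatch_of_leaves783 H420.orbSumExC420 H944.orbSumUniqC944 H965.coverC965 H420.cptC420
    H125.cutC125 H125.finSuppLvlC125 H777.lvlC777 H811.addC811 hReg
    (locCen_of_cases783 (cenNorm_partial783 hDec hPow) H962.cenOddC962 hQ)

/-- **T6.18 `BadMatchC` from its ONLY open leaf**, the quaternion case `CenQuatC783`. -/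
theorem badMatch_of_cenQuat783 (hQ : CenQuatC783) : BadMatchC :=
  badMatch_partial783 locRegC783c decompC783c powC783c hQ

end Fermat.Agent.LT.T6.H783

end
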