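import Fermat.Agent.LT.T6.H783.BadSpec

/-!
# Row LT, tower T6, leaf T6.18g `CenNormC783` (twisted descent at the centre): SECOND-LEVEL
SUB-SPEC (helper783) -- HELPER, use or ignore

OFF-MAIN.  Definitions + frozen Props.  PROVED glue in `CenTop.lean`:

* `cenOne_of_leaves783 : NormInjC → DescC783 → PowC783 → CenOneC783`
* `cenNorm_of_leaves783 : TranslC783 → NormInjC → DescC783 → PowC783 → CenNormC783`

Design memo: `coord/T6.18-design.md` (origin/helper783).

`G = GL₂(k) ⊂ G' = GL₂(k')`; the norm of `h ∈ G` is `h ^ l`.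

* `DescC783` (DESCENT `G' ⇝ G` at `δ₀ = 1`): there are `N₀`, `m`, `ψ` on `G` with
  `TO_h(φ) = O_h(ψ)` for every `h ∈ G` in the `χ`-ball of radius `exp(-N₀)` around `(2, 1)`
  with `h ^ l` regular.
* `PowC783` (PUSH-FORWARD under `h ↦ h ^ l`, a statement on `G` alone): for `ψ` and `N₀` there
  are `N₁`, `m'`, `f` such that every regular `γ` in the `χ`-ball of radius `exp(-N₁)` around
  `(2, 1)` is `h ^ l` with `h` in the ball of radius `exp(-N₀)` and `O_γ(f) = O_h(ψ)`.
* `TranslC783`: translation by the central element `ζ`, `N ζ = z`.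
-/

set_option autoImplicit false

open scoped Matrix

noncomputable section

namespace Fermat.Agent.LT.T6.H783

open Fermat.Agent.LT.T6

/-- **Local matching at the identity** `(2, 1)`. -/
def CenOneC783 : Prop :=
  ∀ (k k' : Type) [Field k] [Field k'] [Valued k Γ₀] [Valued k' Γ₀] (q l e : ℕ)
    (i : k →+* k') (s : k' ≃+* k') (n : ℕ) (φ : GL (Fin 2) k' → ℂ),
    BadData783 k k' q l e i s n φ →
      ∃ (N : ℤ) (m : ℕ) (f : GL (Fin 2) k → ℂ), IsLocSol783 l i s n φ 2 1 N m f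

/-- **T6.18g1 (translation by a central element).**  Local matching at the identity (for all
data, in particular for `g ↦ φ(ζ g)`) gives local matching at every central norm `z = N ζ`. -/
def TranslC783 : Prop := CenOneC783 → CenNormC783

/-- **T6.18g2 (twisted descent `G' ⇝ G` at the identity).** -/
def DescC783 : Prop :=
  ∀ (k k' : Type) [Field k] [Field k'] [Valued k Γ₀] [Valued k' Γ₀] (q l e : ℕ)
    (i : k →+* k') (s : k' ≃+* k') (n : ℕ) (φ : GL (Fin 2) k' → ℂ),
    BadData783 k k' q l e i s n φ →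
      ∃ (N₀ : ℤ) (m : ℕ) (ψ : GL (Fin 2) k → ℂ), IsBiInv (InU m) ψ ∧ HasFinSupp (InU m) ψ ∧
        ∀ (h : GL (Fin 2) k) (c c' : ℂ), InChiBall783 2 1 N₀ h → IsReg (h ^ l) →
          IsTwOrbSum s n φ (Matrix.GeneralLinearGroup.map i h) c → IsOrbSum m ψ h c' → c = c'

/-- **T6.18g3 (push-forward under the `l`-th power map near the identity).** -/
def PowC783 : Prop :=
  ∀ (k : Type) [Field k] [Valued k Γ₀] (q l : ℕ), IsLocalField k q → 0 < l →
    ∀ (N₀ : ℤ) (m : ℕ) (ψ : GL (Fin 2) k → ℂ), IsBiInv (InU m) ψ → HasFinSupp (InU m) ψ →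
      ∃ (N₁ : ℤ) (m' : ℕ) (f : GL (Fin 2) k → ℂ), IsBiInv (InU m') f ∧ HasFinSupp (InU m') f ∧
        ∀ γ : GL (Fin 2) k, IsReg γ → InChiBall783 2 1 N₁ γ →
          ∃ h : GL (Fin 2) k, h ^ l = γ ∧ InChiBall783 2 1 N₀ h ∧
            ∀ c' : ℂ, IsOrbSum m' f γ c' → IsOrbSum m ψ h c'

end Fermat.Agent.LT.T6.H783

end
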